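/-
S37 / package ES (helper9403): generic divisor-level lemmas for a correspondence
`ψ_* ∘ φ^*` between function fields, and the bounded-hom consequence.
-/
import Fermat.Prelude.Def_AlgebraicCurve_Correspondence
import Fermat.Agent.S37.BoundedHom

set_option autoImplicit false
set_option linter.style.haveILetI false

noncomputable section

namespace Fermat.Agent.S37.ES

open AlgebraicCurve

section Generic

variable {K F F' : Type*} [Field K] [Field F] [Field F'] [Algebra K F] [Algebra K F']

/-- pull-back of `div f` along `φ` is `div (φ f)`. -/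
theorem pullbackAlong_apply_eq_ord [HasPrincipalDivisors K F'] (φ : F →ₐ[K] F')
    (hφ : φ.toRingHom.IsIntegral) {f : F} {D : Divisor K F}
    (hD : ∀ v : Place K F, D v = v.ord f) (w : Place K F') :
    Divisor.pullbackAlong φ hφ D w = w.ord (φ f) := by
  letI := algebraAlong φ
  haveI := isScalarTower_along φ
  haveI := isIntegral_along φ hφ
  exact Divisor.pullback_apply_eq_ord hD w

/-- push-forward of `div g` along `ψ` is `div (Norm_ψ g)`. -/
theorem pushforwardAlong_apply_eq_ord (ψ : F →ₐ[K] F') (hψ : ψ.toRingHom.IsIntegral)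
    (hfin : FiniteAlong K ψ) (hN : NormFormulaAlong K ψ hfin) {g : F'} (hg : g ≠ 0)
    {E : Divisor K F'} (hE : ∀ w : Place K F', E w = w.ord g) (v : Place K F) :
    Divisor.pushforwardAlong ψ hψ E v
      = v.ord (letI := algebraAlong ψ; Algebra.norm F g) := by
  letI := algebraAlong ψ
  haveI := isScalarTower_along ψ
  haveI := isIntegral_along ψ hψ
  haveI : Module.Finite F F' := hfin
  exact hN g hg E hE v

/-- the correspondence `ψ_* φ^*` sends `div f` to `div (Norm_ψ (φ f))`. -/
theorem correspondence_apply_eq_ord [HasPrincipalDivisors K F'] (φ ψ : F →ₐ[K] F')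
    (hφ : φ.toRingHom.IsIntegral) (hψ : ψ.toRingHom.IsIntegral)
    (hfin : FiniteAlong K ψ) (hN : NormFormulaAlong K ψ hfin) {f : F} (hf : f ≠ 0)
    {D : Divisor K F} (hD : ∀ v : Place K F, D v = v.ord f) (v : Place K F) :
    Divisor.correspondence φ ψ hφ hψ D v
      = v.ord (letI := algebraAlong ψ; Algebra.norm F (φ f)) := by
  rw [Divisor.correspondence_apply]
  exact pushforwardAlong_apply_eq_ord ψ hψ hfin hN (by simpa using hf)
    (fun w => pullbackAlong_apply_eq_ord φ hφ hD w) v

/-- pull-back preserves effectivity. -/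
theorem pullbackAlong_nonneg [HasPrincipalDivisors K F'] (φ : F →ₐ[K] F')
    (hφ : φ.toRingHom.IsIntegral) {D : Divisor K F} (hD : ∀ v, 0 ≤ D v) (w : Place K F') :
    0 ≤ Divisor.pullbackAlong φ hφ D w := by
  rw [Divisor.pullbackAlong_apply]
  exact mul_nonneg (Int.natCast_nonneg _) (hD _)

/-- push-forward preserves effectivity. -/
theorem pushforwardAlong_nonneg (ψ : F →ₐ[K] F') (hψ : ψ.toRingHom.IsIntegral)
    {E : Divisor K F'} (hE : ∀ w, 0 ≤ E w) (v : Place K F) :
    0 ≤ Divisor.pushforwardAlong ψ hψ E v := by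
  classical
  letI := algebraAlong ψ
  haveI := isScalarTower_along ψ
  haveI := isIntegral_along ψ hψ
  show 0 ≤ Divisor.pushforward F E v
  rw [Divisor.pushforward_apply]
  refine Finset.sum_nonneg fun w _ => ?_
  split_ifs
  · exact mul_nonneg (hE w) (Int.natCast_nonneg _)
  · exact le_rfl

/-- the correspondence preserves effectivity. -/
theorem correspondence_nonneg [HasPrincipalDivisors K F'] (φ ψ : F →ₐ[K] F')
    (hφ : φ.toRingHom.IsIntegral) (hψ : ψ.toRingHom.IsIntegral)
    {D : Divisor K F} (hD : ∀ v, 0 ≤ D v) (v : Place K F) :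
    0 ≤ Divisor.correspondence φ ψ hφ hψ D v := by
  rw [Divisor.correspondence_apply]
  exact pushforwardAlong_nonneg ψ hψ (pullbackAlong_nonneg φ hφ hD) v

/-- Bound for the push-forward by a map of places of the image of a place under the
correspondence. -/
theorem abs_mapDomain_correspondence_single_le [HasPrincipalDivisors K F'] (φ ψ : F →ₐ[K] F')
    (hφ : φ.toRingHom.IsIntegral) (hψ : ψ.toRingHom.IsIntegral)
    (hFI : FundamentalIdentityAlong K φ hφ)
    (hdeg : ∀ v : Place K F, v.deg = 1)
    {ι : Type*} (r : Place K F → ι) (v : Place K F) (i : ι) :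
    |Finsupp.mapDomain r (Divisor.correspondence φ ψ hφ hψ (Finsupp.single v 1)) i|
      ≤ (finrankAlong K φ : ℤ) := by
  classical
  have h1 := BH.abs_apply_le_of_effective (K := K) (F := F) (ι := ι)
    (Finsupp.mapDomain.addMonoidHom r) 1
    (fun w j => by
      rw [Finsupp.mapDomain.addMonoidHom_apply, Finsupp.mapDomain_single, Finsupp.single_apply]
      split_ifs <;> simp)
    (Divisor.correspondence φ ψ hφ hψ (Finsupp.single v 1))
    (correspondence_nonneg φ ψ hφ hψ (fun w => by
      rw [Finsupp.single_apply]; split_ifs <;> simp)) i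
  rw [← BH.degree_eq_sum hdeg, Divisor.degree_correspondence φ ψ hφ hψ hFI,
    Divisor.degree_single, hdeg, mul_one] at h1
  simpa using h1

/-- **Generic Eichler–Shimura transfer.**  If `r_* ∘ (ψ_* φ^*)` and `Φ ∘ r_*` agree on principal
divisors, `Φ` is bounded on places, all places of `F` have degree one and Riemann's inequality holds
in one degree, then they agree on all divisors of degree zero. -/
theorem mapDomain_correspondence_eq [HasPrincipalDivisors K F'] (φ ψ : F →ₐ[K] F')
    (hφ : φ.toRingHom.IsIntegral) (hψ : ψ.toRingHom.IsIntegral)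
    (hFI : FundamentalIdentityAlong K φ hφ)
    {ι : Type*} (r : Place K F → ι) (Φ : (ι →₀ ℤ) →+ (ι →₀ ℤ)) (C : ℤ)
    (hΦ : ∀ i j : ι, |Φ (Finsupp.single i 1) j| ≤ C)
    (hdeg : ∀ v : Place K F, v.deg = 1) (γ : ℕ)
    (hR : ∀ D : Divisor K F, Divisor.degree D = γ →
      ∃ E : Divisor K F, (∀ v, 0 ≤ E v) ∧ E - D ∈ Divisor.principal (K := K) (F := F))
    (hp0 : ∀ D ∈ Divisor.principal (K := K) (F := F), Divisor.degree D = 0)
    (hprin : ∀ D ∈ Divisor.principal (K := K) (F := F),
      Finsupp.mapDomain r (Divisor.correspondence φ ψ hφ hψ D) = Φ (Finsupp.mapDomain r D))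
    (D : Divisor K F) (hD : Divisor.degree D = 0) :
    Finsupp.mapDomain r (Divisor.correspondence φ ψ hφ hψ D) = Φ (Finsupp.mapDomain r D) := by
  classical
  exact BH.eq_of_agree_of_bounded
    ((Finsupp.mapDomain.addMonoidHom r).comp (Divisor.correspondence φ ψ hφ hψ))
    (Φ.comp (Finsupp.mapDomain.addMonoidHom r)) hdeg γ hR hp0 hprin
    (finrankAlong K φ : ℤ) C
    (fun v i => abs_mapDomain_correspondence_single_le φ ψ hφ hψ hFI hdeg r v i)
    (fun v i => by
      rw [AddMonoidHom.comp_apply, Finsupp.mapDomain.addMonoidHom_apply,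
        Finsupp.mapDomain_single]
      exact hΦ _ _) D hD

end Generic

section Semilinear

variable {K F : Type*} [Field K] [Field F] [Algebra K F]

/-- a semilinear automorphism sends `div f` to `div (g • f)`. -/
theorem semilinear_smul_apply_eq_ord (g : SemilinearAut K F) {f : F} {E : Divisor K F}
    (hE : ∀ w : Place K F, E w = w.ord f) (w : Place K F) :
    (g • E) w = w.ord (g • f) := by
  rw [SemilinearAut.divisor_smul_apply, hE]
  have h := SemilinearAut.ord_smul g (g⁻¹ • w) f
  rw [smul_inv_smul] at h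
  exact h.symm

/-- `div (f₁ ^ n * f₂) = n • div f₁ + div f₂`. -/
theorem ord_pow_mul_eq (n : ℕ) {f₁ f₂ : F} (h₁ : f₁ ≠ 0) (h₂ : f₂ ≠ 0)
    {E₁ E₂ : Divisor K F} (hE₁ : ∀ w : Place K F, E₁ w = w.ord f₁)
    (hE₂ : ∀ w : Place K F, E₂ w = w.ord f₂) (w : Place K F) :
    (E₂ + n • E₁) w = w.ord (f₁ ^ n * f₂) := by
  rw [Finsupp.add_apply, Finsupp.smul_apply, hE₁, hE₂, w.ord_mul (pow_ne_zero n h₁) h₂,
    ← zpow_natCast, w.ord_zpow, nsmul_eq_mul, add_comm]

/-- The operator `Fr + n Fr⁻¹` on divisors attached to a semilinear automorphism `Fr`. -/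
def frobOp (g : SemilinearAut K F) (n : ℕ) : Divisor K F →+ Divisor K F :=
  DistribSMul.toAddMonoidHom (Divisor K F) g + n • DistribSMul.toAddMonoidHom (Divisor K F) g⁻¹

theorem frobOp_apply (g : SemilinearAut K F) (n : ℕ) (E : Divisor K F) :
    frobOp g n E = g • E + n • (g⁻¹ • E) := rfl

theorem abs_frobOp_single_le (g : SemilinearAut K F) (n : ℕ) (i j : Place K F) :
    |frobOp g n (Finsupp.single i 1) j| ≤ 1 + n := by
  classical
  rw [frobOp_apply, SemilinearAut.smul_single, SemilinearAut.smul_single, Finsupp.add_apply,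
    Finsupp.smul_apply, Finsupp.single_apply, Finsupp.single_apply]
  have hn : (0 : ℤ) ≤ (n : ℤ) := Int.natCast_nonneg n
  split_ifs <;> simp only [nsmul_eq_mul, mul_one, mul_zero, add_zero, zero_add] <;>
    rw [abs_of_nonneg (by omega)] <;> omega

end Semilinear

end Fermat.Agent.S37.ES
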