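/-
S37 / package ES (helper9403): the Eichler–Shimura congruence for the reduction map, from

* KRON  (the Kronecker congruence for `Norm_α (β f)` on integral `q`-expansions),
* H2    (`IsPlaceReductionModL`) + `PrincipalGeneratedByIntegral`,
* RIEM  (all places of degree one, Riemann's inequality in one degree, principal ⇒ degree 0),
* HI    (the Hecke inputs),

through the bounded-hom lemma.  `Fr` is ANY semilinear automorphism of the special fibre function
field for which the Kronecker congruence holds (in the application: coefficientwise Frobenius).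
-/
import Fermat.Agent.S37.ES.Generic
import Fermat.Prelude.Def_ModularCurve_HeckeModule
import Fermat.Prelude.Def_ModularCurve_ReductionModL

set_option autoImplicit false
set_option linter.style.haveILetI false

noncomputable section

namespace Fermat.Agent.S37.ES

open ModularCurve AlgebraicCurve

set_option synthInstance.maxHeartbeats 400000

section Modular

variable (A : ValuationSubring (AlgebraicClosure ℚ)) (N ℓ : ℕ) [NeZero N] [NeZero ℓ]

/-- **KRON**, in the shape consumed by ES: for an `A`-integral `q`-expansion `y` of a function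
`f ∈ F_N ⊗ ℚ̄` whose reduction `ȳ` is a nonzero element of the special fibre function field, the
function `Norm_α (β f)` has an `A`-integral `q`-expansion `y'` whose reduction is
`(Fr⁻¹ ȳ)^ℓ * Fr ȳ`. -/
def KroneckerCongruence
    (Fr : SemilinearAut (IsLocalRing.ResidueField A)
      (modularFunctionFieldFullC (IsLocalRing.ResidueField A) N)) : Prop :=
  ∀ (y : LaurentSeries A) (hy : coeffMap A.subtype y ∈ modularFunctionFieldBar N)
    (hyk : coeffMap (IsLocalRing.residue A) y ∈
      modularFunctionFieldFullC (IsLocalRing.ResidueField A) N),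
    coeffMap (IsLocalRing.residue A) y ≠ 0 →
    ∃ y' : LaurentSeries A,
      coeffMap A.subtype y' =
        (((letI := algebraAlong (heckeAlphaBar (AlgebraicClosure ℚ) N ℓ)
          Algebra.norm (modularFunctionFieldBar N)
            (heckeBetaBar (AlgebraicClosure ℚ) N ℓ ⟨coeffMap A.subtype y, hy⟩)) :
            modularFunctionFieldBar N) : LaurentSeries (AlgebraicClosure ℚ)) ∧
      coeffMap (IsLocalRing.residue A) y' =
        (((Fr⁻¹ • (⟨coeffMap (IsLocalRing.residue A) y, hyk⟩ :
              modularFunctionFieldFullC (IsLocalRing.ResidueField A) N)) ^ ℓ *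
            (Fr • (⟨coeffMap (IsLocalRing.residue A) y, hyk⟩ :
              modularFunctionFieldFullC (IsLocalRing.ResidueField A) N)) :
            modularFunctionFieldFullC (IsLocalRing.ResidueField A) N) :
          LaurentSeries (IsLocalRing.ResidueField A))

variable {A N ℓ}

theorem coeffMap_subtype_injective :
    Function.Injective (coeffMap A.subtype) := by
  intro x y h
  ext k
  have := congrArg (fun z => z.coeff k) h
  simpa using this

/-- Divisor level, integral principal divisors: `r_* T_ℓ = (Fr + ℓ Fr⁻¹) r_*`. -/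
theorem mapDomain_heckeDivBar_of_integral
    (hα : HeckeAlphaBarIntegral (AlgebraicClosure ℚ) N ℓ)
    (hβ : HeckeBetaBarIntegral (AlgebraicClosure ℚ) N ℓ)
    [HasPrincipalDivisors (AlgebraicClosure ℚ) (modularFunctionFieldBar (N * ℓ))]
    (hfin : FiniteAlong (AlgebraicClosure ℚ) (heckeAlphaBar (AlgebraicClosure ℚ) N ℓ))
    (hN : NormFormulaAlong (AlgebraicClosure ℚ) (heckeAlphaBar (AlgebraicClosure ℚ) N ℓ) hfin)
    {r : Place (AlgebraicClosure ℚ) (modularFunctionFieldBar N) →
      Place (IsLocalRing.ResidueField A) (modularFunctionFieldFullC (IsLocalRing.ResidueField A) N)}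
    (hr : IsPlaceReductionModL A N r)
    {Fr : SemilinearAut (IsLocalRing.ResidueField A)
      (modularFunctionFieldFullC (IsLocalRing.ResidueField A) N)}
    (hK : KroneckerCongruence A N ℓ Fr)
    {D : Divisor (AlgebraicClosure ℚ) (modularFunctionFieldBar N)}
    (hD : D ∈ integralPrincipalDivisors A (IsLocalRing.residue A) N) :
    Finsupp.mapDomain r (heckeDivBar hα hβ D) = frobOp Fr ℓ (Finsupp.mapDomain r D) := by
  obtain ⟨y, hy, hyk, hne, hDy⟩ := hD
  have hf0 : (⟨coeffMap A.subtype y, hy⟩ : modularFunctionFieldBar N) ≠ 0 := by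
    intro h0
    apply hne
    have h1 : coeffMap A.subtype y = 0 := congrArg Subtype.val h0
    have h2 : y = 0 := coeffMap_subtype_injective (by rw [h1, map_zero])
    rw [h2, map_zero]
  have hfb0 : (⟨coeffMap (IsLocalRing.residue A) y, hyk⟩ :
      modularFunctionFieldFullC (IsLocalRing.ResidueField A) N) ≠ 0 :=
    fun h0 => hne (congrArg Subtype.val h0)
  -- reduction of `div f`
  have hE := hr.2 y hy hyk hne D hDy
  -- the Kronecker congruence
  obtain ⟨y', hy'1, hy'2⟩ := hK y hy hyk hne
  have hy' : coeffMap A.subtype y' ∈ modularFunctionFieldBar N := by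
    rw [hy'1]; exact SetLike.coe_mem _
  have hyk' : coeffMap (IsLocalRing.residue A) y' ∈
      modularFunctionFieldFullC (IsLocalRing.ResidueField A) N := by
    rw [hy'2]; exact SetLike.coe_mem _
  have hprod0 : ((Fr⁻¹ • (⟨coeffMap (IsLocalRing.residue A) y, hyk⟩ :
        modularFunctionFieldFullC (IsLocalRing.ResidueField A) N)) ^ ℓ *
      (Fr • (⟨coeffMap (IsLocalRing.residue A) y, hyk⟩ :
        modularFunctionFieldFullC (IsLocalRing.ResidueField A) N)) :
      modularFunctionFieldFullC (IsLocalRing.ResidueField A) N) ≠ 0 :=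
    mul_ne_zero (pow_ne_zero _ (by simpa using hfb0)) (by simpa using hfb0)
  have hne' : coeffMap (IsLocalRing.residue A) y' ≠ 0 := by
    rw [hy'2]
    exact fun h0 => hprod0 (Subtype.ext h0)
  -- `T_ℓ (div f) = div (Norm_α (β f))`
  have hT : ∀ P, heckeDivBar hα hβ D P =
      P.ord (⟨coeffMap A.subtype y', hy'⟩ : modularFunctionFieldBar N) := by
    intro P
    have h1 := correspondence_apply_eq_ord (heckeBetaBar (AlgebraicClosure ℚ) N ℓ)
      (heckeAlphaBar (AlgebraicClosure ℚ) N ℓ) hβ hα hfin hN hf0 hDy P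
    rw [heckeDivBar, h1]
    congr 1
    exact Subtype.ext hy'1.symm
  have hE' := hr.2 y' hy' hyk' hne' (heckeDivBar hα hβ D) hT
  ext Q
  rw [hE' Q, frobOp_apply]
  rw [ord_pow_mul_eq ℓ (f₁ := Fr⁻¹ • (⟨coeffMap (IsLocalRing.residue A) y, hyk⟩ :
        modularFunctionFieldFullC (IsLocalRing.ResidueField A) N))
      (f₂ := Fr • (⟨coeffMap (IsLocalRing.residue A) y, hyk⟩ :
        modularFunctionFieldFullC (IsLocalRing.ResidueField A) N))
      (by simpa using hfb0) (by simpa using hfb0)
      (semilinear_smul_apply_eq_ord Fr⁻¹ hE) (semilinear_smul_apply_eq_ord Fr hE) Q]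
  congr 1
  exact Subtype.ext hy'2

/-- Divisor level, all principal divisors. -/
theorem mapDomain_heckeDivBar_of_principal
    (hα : HeckeAlphaBarIntegral (AlgebraicClosure ℚ) N ℓ)
    (hβ : HeckeBetaBarIntegral (AlgebraicClosure ℚ) N ℓ)
    [HasPrincipalDivisors (AlgebraicClosure ℚ) (modularFunctionFieldBar (N * ℓ))]
    (hfin : FiniteAlong (AlgebraicClosure ℚ) (heckeAlphaBar (AlgebraicClosure ℚ) N ℓ))
    (hN : NormFormulaAlong (AlgebraicClosure ℚ) (heckeAlphaBar (AlgebraicClosure ℚ) N ℓ) hfin)
    {r : Place (AlgebraicClosure ℚ) (modularFunctionFieldBar N) →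
      Place (IsLocalRing.ResidueField A) (modularFunctionFieldFullC (IsLocalRing.ResidueField A) N)}
    (hr : IsPlaceReductionModL A N r)
    (hgen : PrincipalGeneratedByIntegral A (IsLocalRing.residue A) N)
    {Fr : SemilinearAut (IsLocalRing.ResidueField A)
      (modularFunctionFieldFullC (IsLocalRing.ResidueField A) N)}
    (hK : KroneckerCongruence A N ℓ Fr)
    {D : Divisor (AlgebraicClosure ℚ) (modularFunctionFieldBar N)}
    (hD : D ∈ Divisor.principal (K := AlgebraicClosure ℚ) (F := modularFunctionFieldBar N)) :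
    Finsupp.mapDomain r (heckeDivBar hα hβ D) = frobOp Fr ℓ (Finsupp.mapDomain r D) := by
  have hD' := hgen hD
  clear hD
  induction hD' using AddSubgroup.closure_induction with
  | mem E hE => exact mapDomain_heckeDivBar_of_integral hα hβ hfin hN hr hK hE
  | zero => simp
  | add E E' _ _ hE hE' =>
    rw [map_add, Finsupp.mapDomain_add, Finsupp.mapDomain_add, map_add, hE, hE']
  | neg E _ hE =>
    have h1 : Finsupp.mapDomain r (-E) = -Finsupp.mapDomain r E :=
      map_neg (Finsupp.mapDomain.addMonoidHom r) E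
    have h2 : Finsupp.mapDomain r (-(heckeDivBar hα hβ E)) =
        -Finsupp.mapDomain r (heckeDivBar hα hβ E) :=
      map_neg (Finsupp.mapDomain.addMonoidHom r) _
    rw [map_neg, h2, h1, map_neg, hE]

/-- Divisor level, all divisors of degree zero (bounded-hom lemma + RIEM). -/
theorem mapDomain_heckeDivBar_of_degree_zero
    (hα : HeckeAlphaBarIntegral (AlgebraicClosure ℚ) N ℓ)
    (hβ : HeckeBetaBarIntegral (AlgebraicClosure ℚ) N ℓ)
    [HasPrincipalDivisors (AlgebraicClosure ℚ) (modularFunctionFieldBar (N * ℓ))]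
    (hFI : FundamentalIdentityAlong (AlgebraicClosure ℚ) (heckeBetaBar (AlgebraicClosure ℚ) N ℓ) hβ)
    (hfin : FiniteAlong (AlgebraicClosure ℚ) (heckeAlphaBar (AlgebraicClosure ℚ) N ℓ))
    (hN : NormFormulaAlong (AlgebraicClosure ℚ) (heckeAlphaBar (AlgebraicClosure ℚ) N ℓ) hfin)
    {r : Place (AlgebraicClosure ℚ) (modularFunctionFieldBar N) →
      Place (IsLocalRing.ResidueField A) (modularFunctionFieldFullC (IsLocalRing.ResidueField A) N)}
    (hr : IsPlaceReductionModL A N r)
    (hgen : PrincipalGeneratedByIntegral A (IsLocalRing.residue A) N)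
    {Fr : SemilinearAut (IsLocalRing.ResidueField A)
      (modularFunctionFieldFullC (IsLocalRing.ResidueField A) N)}
    (hK : KroneckerCongruence A N ℓ Fr)
    (hdeg : ∀ v : Place (AlgebraicClosure ℚ) (modularFunctionFieldBar N), v.deg = 1) (γ : ℕ)
    (hR : ∀ D : Divisor (AlgebraicClosure ℚ) (modularFunctionFieldBar N),
      Divisor.degree D = γ →
      ∃ E : Divisor (AlgebraicClosure ℚ) (modularFunctionFieldBar N), (∀ v, 0 ≤ E v) ∧
        E - D ∈ Divisor.principal (K := AlgebraicClosure ℚ) (F := modularFunctionFieldBar N))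
    (hp0 : ∀ D ∈ Divisor.principal (K := AlgebraicClosure ℚ) (F := modularFunctionFieldBar N),
      Divisor.degree D = 0)
    (D : Divisor (AlgebraicClosure ℚ) (modularFunctionFieldBar N))
    (hD : Divisor.degree D = 0) :
    Finsupp.mapDomain r (heckeDivBar hα hβ D) = frobOp Fr ℓ (Finsupp.mapDomain r D) :=
  mapDomain_correspondence_eq (heckeBetaBar (AlgebraicClosure ℚ) N ℓ)
    (heckeAlphaBar (AlgebraicClosure ℚ) N ℓ) hβ hα hFI r (frobOp Fr ℓ) (1 + ℓ)
    (abs_frobOp_single_le Fr ℓ) hdeg γ hR hp0
    (fun _ hE => mapDomain_heckeDivBar_of_principal hα hβ hfin hN hr hgen hK hE) D hD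

/-- `Pic⁰` level: `red ∘ T_ℓ = (Fr + ℓ Fr⁻¹) ∘ red`. -/
theorem reductionModL_heckeOperatorAlong
    (h : ReductionInputsModL A N)
    (hHI : HeckeInputsAlong (AlgebraicClosure ℚ) N ℓ)
    {Fr : SemilinearAut (IsLocalRing.ResidueField A)
      (modularFunctionFieldFullC (IsLocalRing.ResidueField A) N)}
    (hK : KroneckerCongruence A N ℓ Fr)
    (hdeg : ∀ v : Place (AlgebraicClosure ℚ) (modularFunctionFieldBar N), v.deg = 1) (γ : ℕ)
    (hR : ∀ D : Divisor (AlgebraicClosure ℚ) (modularFunctionFieldBar N),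
      Divisor.degree D = γ →
      ∃ E : Divisor (AlgebraicClosure ℚ) (modularFunctionFieldBar N), (∀ v, 0 ≤ E v) ∧
        E - D ∈ Divisor.principal (K := AlgebraicClosure ℚ) (F := modularFunctionFieldBar N))
    (hp0 : ∀ D ∈ Divisor.principal (K := AlgebraicClosure ℚ) (F := modularFunctionFieldBar N),
      Divisor.degree D = 0)
    (x : JZero N) :
    reductionModL A N (heckeOperatorAlong (AlgebraicClosure ℚ) N ℓ x)
      = Fr • reductionModL A N x + ℓ • (Fr⁻¹ • reductionModL A N x) := by
  obtain ⟨hα, hβ, hP, hfin, hFI, hN⟩ := hHI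
  haveI := hP
  obtain ⟨D, rfl⟩ := Pic0.mk_surjective x
  rw [heckeOperatorAlong_eq hα hβ hFI hfin hN]
  show reductionModL A N (Pic0.mk (Pic0.degZeroCorrespondence _ _ hβ hα hFI D)) = _
  rw [reductionModL_mk h, reductionModL_mk h, SemilinearAut.pic0_smul_mk,
    SemilinearAut.pic0_smul_mk]
  show _ = Pic0.mk (_ + ℓ • _)
  refine congrArg Pic0.mk (Subtype.ext ?_)
  have key := mapDomain_heckeDivBar_of_degree_zero hα hβ hFI hfin hN
    (isPlaceReductionModL_placeReductionModL h) h.choose_spec.2 hK hdeg γ hR hp0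
    (D : Divisor (AlgebraicClosure ℚ) (modularFunctionFieldBar N))
    (Divisor.mem_degZero.mp D.2)
  rw [frobOp_apply] at key
  exact key

/-- **ES, final form** (clause (ii) of TOP): for a Galois element `σ` whose action is intertwined
with `Fr` by the reduction map (GAL, for Frobenius elements), the reduction map kills
`σ² x - T_ℓ (σ x) + ℓ x`. -/
theorem reductionModL_frobenius_relation (hℓ : ℓ.Prime)
    (hHI : HeckeInputsAlong (AlgebraicClosure ℚ) N ℓ)
    {Fr : SemilinearAut (IsLocalRing.ResidueField A)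
      (modularFunctionFieldFullC (IsLocalRing.ResidueField A) N)}
    (hK : KroneckerCongruence A N ℓ Fr)
    (hdeg : ∀ v : Place (AlgebraicClosure ℚ) (modularFunctionFieldBar N), v.deg = 1) (γ : ℕ)
    (hR : ∀ D : Divisor (AlgebraicClosure ℚ) (modularFunctionFieldBar N),
      Divisor.degree D = γ →
      ∃ E : Divisor (AlgebraicClosure ℚ) (modularFunctionFieldBar N), (∀ v, 0 ≤ E v) ∧
        E - D ∈ Divisor.principal (K := AlgebraicClosure ℚ) (F := modularFunctionFieldBar N))
    (hp0 : ∀ D ∈ Divisor.principal (K := AlgebraicClosure ℚ) (F := modularFunctionFieldBar N),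
      Divisor.degree D = 0)
    (σ : AlgebraicClosure ℚ ≃ₐ[ℚ] AlgebraicClosure ℚ)
    (hGal : ∀ x : JZero N, reductionModL A N (σ • x) = Fr • reductionModL A N x)
    (x : JZero N) :
    reductionModL A N (σ • σ • x - heckeOperatorBar N ⟨ℓ, hℓ⟩ (σ • x) + ℓ • x) = 0 := by
  by_cases h : ReductionInputsModL A N
  · have hT : heckeOperatorBar N ⟨ℓ, hℓ⟩ (σ • x)
        = heckeOperatorAlong (AlgebraicClosure ℚ) N ℓ (σ • x) := rfl
    rw [map_add, map_sub, map_nsmul, hT,
      reductionModL_heckeOperatorAlong h hHI hK hdeg γ hR hp0 (σ • x), hGal, hGal,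
      inv_smul_smul]
    abel
  · rw [reductionModL_of_not h]
    rfl

end Modular

end Fermat.Agent.S37.ES
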